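import Mathlib

/-!
# Row LT, tower T6, leaf T6.18g2-D2 `GenLvlC783` (helper196) -- part 1: counting cosets

OFF-MAIN.  Mathlib only.  Abstract group theory with subgroups given by predicates.

* `count196` : for subgroups `U ⊂ Γ` and `A` of a group `G`, and representatives `γ j`, `j ∈ J`,
  of the double cosets `(A ∩ Γ) \ Γ / U`:
  `∑_j #{t γ_j U : t ∈ A} = #{g U : g ∈ Γ} · #{t Γ : t ∈ A}` (cardinalities as `Set.ncard`, so
  that both sides vanish when `A Γ / Γ` is infinite).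
-/

set_option autoImplicit false

namespace Fermat.Agent.LT.T6.H196

variable {G : Type} [Group G]

/-- The left coset `x P`. -/
def lc196 (P : G → Prop) (x : G) : Set G := {g | ∃ u, P u ∧ g = x * u}

/-- `P` is (the predicate of) a subgroup. -/
structure IsSub196 (P : G → Prop) : Prop where
  one : P 1
  mul : ∀ a b, P a → P b → P (a * b)
  inv : ∀ a, P a → P a⁻¹

theorem mem_lc196 {P : G → Prop} (hP : IsSub196 P) (x : G) : x ∈ lc196 P x :=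
  ⟨1, hP.one, (mul_one x).symm⟩

theorem lc196_eq_of {P : G → Prop} (hP : IsSub196 P) {x y : G} (h : P (x⁻¹ * y)) :
    lc196 P x = lc196 P y := by
  ext g
  constructor
  · rintro ⟨u, hu, rfl⟩
    refine ⟨(x⁻¹ * y)⁻¹ * u, hP.mul _ _ (hP.inv _ h) hu, ?_⟩
    group
  · rintro ⟨u, hu, rfl⟩
    refine ⟨(x⁻¹ * y) * u, hP.mul _ _ h hu, ?_⟩
    group

theorem rel_of_mem_lc196 {P : G → Prop} (hP : IsSub196 P) {x y z : G} (hx : z ∈ lc196 P x)
    (hy : z ∈ lc196 P y) : P (x⁻¹ * y) := by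
  obtain ⟨u, hu, rfl⟩ := hx
  obtain ⟨u', hu', h⟩ := hy
  have : x⁻¹ * y = u * u'⁻¹ := by
    rw [eq_mul_inv_iff_mul_eq, mul_assoc, ← h, inv_mul_cancel_left]
  rw [this]
  exact hP.mul _ _ hu (hP.inv _ hu')

theorem rel_of_lc196_eq {P : G → Prop} (hP : IsSub196 P) {x y : G}
    (h : lc196 P x = lc196 P y) : P (x⁻¹ * y) :=
  rel_of_mem_lc196 hP (h ▸ mem_lc196 hP y) (mem_lc196 hP y)

/-- Left translation of a subset. -/
def ltr196 (a : G) (c : Set G) : Set G := (fun g => a * g) '' c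

theorem ltr196_injective (a : G) : Function.Injective (ltr196 (G := G) a) :=
  Set.image_injective.mpr (mul_right_injective a)

theorem ltr196_lc (P : G → Prop) (a x : G) : ltr196 a (lc196 P x) = lc196 P (a * x) := by
  ext g
  constructor
  · rintro ⟨_, ⟨u, hu, rfl⟩, rfl⟩
    exact ⟨u, hu, (mul_assoc a x u).symm⟩
  · rintro ⟨u, hu, rfl⟩
    exact ⟨x * u, ⟨u, hu, rfl⟩, (mul_assoc a x u).symm⟩

/-- The saturation `c P` of a subset. -/
def sat196 (P : G → Prop) (c : Set G) : Set G := {x | ∃ z ∈ c, ∃ u, P u ∧ x = z * u}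

theorem sat196_lc {U Γ : G → Prop} (hU : IsSub196 U) (hΓ : IsSub196 Γ)
    (hUΓ : ∀ g, U g → Γ g) (t g : G) (hg : Γ g) :
    sat196 Γ (lc196 U (t * g)) = lc196 Γ t := by
  ext x
  constructor
  · rintro ⟨_, ⟨u, hu, rfl⟩, w, hw, rfl⟩
    refine ⟨g * u * w, hΓ.mul _ _ (hΓ.mul _ _ hg (hUΓ u hu)) hw, ?_⟩
    group
  · rintro ⟨w, hw, rfl⟩
    refine ⟨t * g, mem_lc196 hU _, g⁻¹ * w, hΓ.mul _ _ (hΓ.inv _ hg) hw, ?_⟩
    group

/-- **Counting cosets.** -/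
theorem count196 (U Γ A : G → Prop) (hU : IsSub196 U) (hΓ : IsSub196 Γ) (hA : IsSub196 A)
    (hUΓ : ∀ g, U g → Γ g)
    (hfin : {c : Set G | ∃ g, Γ g ∧ c = lc196 U g}.Finite)
    (J : Finset G) (γ : G → G) (hγ : ∀ j ∈ J, Γ (γ j))
    (hdisj : ∀ j ∈ J, ∀ j' ∈ J, (∃ a u, A a ∧ U u ∧ γ j' = a * γ j * u) → j = j')
    (hcov : ∀ g, Γ g → ∃ j ∈ J, ∃ a u, A a ∧ U u ∧ g = a * γ j * u) :
    ∑ j ∈ J, Set.ncard {c : Set G | ∃ t, A t ∧ c = lc196 U (t * γ j)}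
      = Set.ncard {c : Set G | ∃ g, Γ g ∧ c = lc196 U g}
        * Set.ncard {c : Set G | ∃ t, A t ∧ c = lc196 Γ t} := by
  classical
  set 𝒦 : Set (Set G) := {c | ∃ g, Γ g ∧ c = lc196 U g} with h𝒦
  set 𝒬 : Set (Set G) := {c | ∃ t, A t ∧ c = lc196 Γ t} with h𝒬
  set 𝒵j : G → Set (Set G) := fun j => {c | ∃ t, A t ∧ c = lc196 U (t * γ j)} with h𝒵j
  set 𝒵 : Set (Set G) := {c | ∃ t g, A t ∧ Γ g ∧ c = lc196 U (t * g)} with h𝒵
  -- Step 1: the union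
  have hunion : 𝒵 = ⋃ j ∈ (J : Set G), 𝒵j j := by
    ext c
    rw [Set.mem_iUnion₂]
    constructor
    · rintro ⟨t, g, ht, hg, rfl⟩
      obtain ⟨j, hj, a, u, ha, hu, rfl⟩ := hcov g hg
      refine ⟨j, hj, t * a, hA.mul _ _ ht ha, ?_⟩
      apply lc196_eq_of hU
      have : (t * (a * γ j * u))⁻¹ * (t * a * γ j) = u⁻¹ := by group
      rw [this]
      exact hU.inv _ hu
    · rintro ⟨j, hj, t, ht, rfl⟩
      exact ⟨t, γ j, ht, hγ j hj, rfl⟩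
  -- Step 2: disjointness
  have hpd : (J : Set G).PairwiseDisjoint 𝒵j := by
    intro j hj j' hj' hne
    rw [Function.onFun, Set.disjoint_left]
    rintro c ⟨t, ht, rfl⟩ ⟨t', ht', h⟩
    apply hne
    apply hdisj j hj j' hj'
    have hu := rel_of_lc196_eq hU h
    refine ⟨t'⁻¹ * t, (t * γ j)⁻¹ * (t' * γ j'), hA.mul _ _ (hA.inv _ ht') ht, hu, ?_⟩
    group
  -- Step 3: `𝒵 ≃ 𝒬 × 𝒦`
  have hτ : ∀ q : Set G, ∃ t, q ∈ 𝒬 → (A t ∧ q = lc196 Γ t) := fun q => by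
    by_cases h : q ∈ 𝒬
    · obtain ⟨t, ht, hq⟩ := h
      exact ⟨t, fun _ => ⟨ht, hq⟩⟩
    · exact ⟨1, fun h' => absurd h' h⟩
  choose τ hτ using hτ
  set Φ : Set G × Set G → Set G := fun p => ltr196 (τ p.1) p.2 with hΦ
  have himg : 𝒵 = Φ '' (𝒬 ×ˢ 𝒦) := by
    ext c
    constructor
    · rintro ⟨t, g, ht, hg, rfl⟩
      have hq : lc196 Γ t ∈ 𝒬 := ⟨t, ht, rfl⟩
      obtain ⟨hτA, hτq⟩ := hτ _ hq
      have hrel : Γ ((τ (lc196 Γ t))⁻¹ * t) := rel_of_lc196_eq hΓ hτq.symm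
      refine ⟨(lc196 Γ t, lc196 U ((τ (lc196 Γ t))⁻¹ * t * g)),
        ⟨hq, ⟨_, hΓ.mul _ _ hrel hg, rfl⟩⟩, ?_⟩
      change ltr196 (τ _) (lc196 U _) = _
      rw [ltr196_lc]
      congr 1
      group
    · rintro ⟨⟨q, c₀⟩, ⟨hq, ⟨g, hg, rfl⟩⟩, rfl⟩
      obtain ⟨hτA, hτq⟩ := hτ _ hq
      change ltr196 (τ q) (lc196 U g) ∈ 𝒵
      rw [ltr196_lc]
      exact ⟨τ q, g, hτA, hg, rfl⟩
  have hinj : Set.InjOn Φ (𝒬 ×ˢ 𝒦) := by
    rintro ⟨q, c₀⟩ ⟨hq, ⟨g, hg, rfl⟩⟩ ⟨q', c₀'⟩ ⟨hq', ⟨g', hg', rfl⟩⟩ h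
    change ltr196 (τ q) (lc196 U g) = ltr196 (τ q') (lc196 U g') at h
    obtain ⟨hτA, hτq⟩ := hτ _ hq
    obtain ⟨hτA', hτq'⟩ := hτ _ hq'
    have hqq : q = q' := by
      have h' := h
      rw [ltr196_lc, ltr196_lc] at h'
      have h2 := congrArg (sat196 Γ) h'
      rw [sat196_lc hU hΓ hUΓ _ _ hg, sat196_lc hU hΓ hUΓ _ _ hg'] at h2
      calc q = lc196 Γ (τ q) := hτq
        _ = lc196 Γ (τ q') := h2
        _ = q' := hτq'.symm
    subst hqq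
    have h3 := ltr196_injective _ h
    rw [h3]
  have hZ : 𝒵.ncard = 𝒬.ncard * 𝒦.ncard := by
    rw [himg, hinj.ncard_image, Set.ncard_prod]
  -- Step 4: the dichotomy
  rcases Set.finite_or_infinite 𝒬 with hQ | hQ
  · have hZfin : 𝒵.Finite := by
      rw [himg]
      exact (hQ.prod hfin).image _
    have hjfin : ∀ j ∈ (J : Set G), (𝒵j j).Finite := fun j hj =>
      hZfin.subset (by rw [hunion]; exact Set.subset_biUnion_of_mem hj)
    have hsum := Set.Finite.ncard_biUnion (Finset.finite_toSet J) hjfin hpd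
    rw [← hunion, finsum_mem_coe_finset] at hsum
    rw [← hsum, hZ, mul_comm]
  · have hzero : ∀ j ∈ J, (𝒵j j).ncard = 0 := by
      intro j hj
      apply Set.Infinite.ncard
      intro hfinj
      apply hQ
      have : 𝒬 = sat196 Γ '' (𝒵j j) := by
        ext q
        constructor
        · rintro ⟨t, ht, rfl⟩
          exact ⟨lc196 U (t * γ j), ⟨t, ht, rfl⟩, sat196_lc hU hΓ hUΓ t _ (hγ j hj)⟩
        · rintro ⟨_, ⟨t, ht, rfl⟩, rfl⟩
          exact ⟨t, ht, sat196_lc hU hΓ hUΓ t _ (hγ j hj)⟩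
      rw [this]
      exact hfinj.image _
    rw [Finset.sum_eq_zero hzero, hQ.ncard, mul_zero]

end Fermat.Agent.LT.T6.H196
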