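import Fermat.Agent.LT.T6.H783.DescSpec
import Fermat.Agent.LT.T6.H846.OrbAlg
import Fermat.Agent.LT.T6.H196.GenLvlOrb

/-!
# Row LT, tower T6, leaf T6.18g2-D2 `GenLvlC783` (helper196) -- part 3: `GL₂(k)`

OFF-MAIN.  `genLvlC196 : GenLvlC783` VERBATIM (Prop of `LT/T6/H783/DescSpec.lean`,
helper783@4831eb18d).  Uses the algebra of helper846 (`LT/T6/H846/OrbAlg.lean`, byte-identical
copy): `U(m)` is a subgroup, the compact part of the centraliser of a regular element is closed
under products.
-/

set_option autoImplicit false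

open scoped Matrix

noncomputable section

namespace Fermat.Agent.LT.T6.H196

open Fermat.Agent.LT.T6 Fermat.Agent.LT.T6.H783 Fermat.Agent.LT.T6.H846

variable {k : Type} [Field k] [Valued k Γ₀]

/-- `glAut` of the identity is the identity. -/
theorem glAut_refl196 : glAut (RingEquiv.refl k) = MonoidHom.id (GL (Fin 2) k) :=
  MonoidHom.ext fun g => glAut_eq_self846 (RingEquiv.refl k) (fun _ => rfl) g

theorem glAut_refl_apply196 (g : GL (Fin 2) k) : glAut (RingEquiv.refl k) g = g :=
  glAut_eq_self846 (RingEquiv.refl k) (fun _ => rfl) g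

omit [Valued k Γ₀] in
/-- The discriminant is invariant under conjugation. -/
theorem isReg_conj196 (h x : GL (Fin 2) k) (hreg : IsReg h) : IsReg (x⁻¹ * h * x) := by
  have e2 : ((x⁻¹ * h * x : GL (Fin 2) k) : Matrix (Fin 2) (Fin 2) k).trace
      = (h : Matrix (Fin 2) (Fin 2) k).trace := by
    rw [Units.val_mul, Units.val_mul, Matrix.trace_mul_cycle, ← Units.val_mul, mul_inv_cancel]
    simp
  have e3 : ((x⁻¹ * h * x : GL (Fin 2) k) : Matrix (Fin 2) (Fin 2) k).det
      = (h : Matrix (Fin 2) (Fin 2) k).det := by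
    rw [Units.val_mul, Units.val_mul, Matrix.det_mul, Matrix.det_mul, mul_comm, ← mul_assoc,
      ← Matrix.det_mul, ← Units.val_mul, mul_inv_cancel]
    simp
  unfold IsReg disc at hreg ⊢
  rw [e2, e3]
  exact hreg

theorem valued_two_le_one196 : Valued.v (2 : k) ≤ 1 := by
  have : (2 : k) = 1 + 1 := by norm_num
  rw [this]
  exact Valuation.map_add_le _ (by simp) (by simp)

/-- `1` lies in the compact part of every centraliser. -/
theorem inTwCentC_one196 (y : GL (Fin 2) k) : InTwCentC (RingEquiv.refl k) y 1 := by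
  refine ⟨?_, ?_, ?_⟩
  · change (1 : GL (Fin 2) k)⁻¹ * y * glAut (RingEquiv.refl k) 1 = y
    rw [map_one, inv_one, one_mul, mul_one]
  · rw [Units.val_one, Matrix.trace_one, Fintype.card_fin]
    have : ((2 : ℕ) : k) = 2 := by norm_num
    rw [this]
    exact valued_two_le_one196
  · rw [Units.val_one, Matrix.det_one, map_one]

/-- The compact part of a centraliser is closed under inverses. -/
theorem inTwCentC_inv196 (y t : GL (Fin 2) k) (ht : InTwCentC (RingEquiv.refl k) y t) :
    InTwCentC (RingEquiv.refl k) y t⁻¹ := by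
  obtain ⟨h1, h2, h3⟩ := ht
  have h1' : t⁻¹ * y * t = y := by
    have := h1
    unfold InTwCent at this
    rw [glAut_refl_apply196] at this
    exact this
  have hdet : (t : Matrix (Fin 2) (Fin 2) k).det
      * ((t⁻¹ : GL (Fin 2) k) : Matrix (Fin 2) (Fin 2) k).det = 1 := by
    rw [← Matrix.det_mul, ← Units.val_mul, mul_inv_cancel]
    simp
  have hvdet : Valued.v ((t⁻¹ : GL (Fin 2) k) : Matrix (Fin 2) (Fin 2) k).det = 1 := by
    have := congrArg Valued.v hdet
    rw [map_mul, h3, one_mul, map_one] at this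
    exact this
  refine ⟨?_, ?_, hvdet⟩
  · change (t⁻¹)⁻¹ * y * glAut (RingEquiv.refl k) t⁻¹ = y
    rw [glAut_refl_apply196, inv_inv]
    calc t * y * t⁻¹ = t * (t⁻¹ * y * t) * t⁻¹ := by rw [h1']
      _ = y := by group
  · -- `tr t⁻¹ = tr t · det t⁻¹`
    have hadj : ((t⁻¹ : GL (Fin 2) k) : Matrix (Fin 2) (Fin 2) k)
        = ((t⁻¹ : GL (Fin 2) k) : Matrix (Fin 2) (Fin 2) k).det
          • (t : Matrix (Fin 2) (Fin 2) k).adjugate := by
      have e1 : (t : Matrix (Fin 2) (Fin 2) k) * ((t⁻¹ : GL (Fin 2) k) : Matrix (Fin 2) (Fin 2) k)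
          = 1 := by
        rw [← Units.val_mul, mul_inv_cancel]
        rfl
      calc ((t⁻¹ : GL (Fin 2) k) : Matrix (Fin 2) (Fin 2) k)
          = ((t : Matrix (Fin 2) (Fin 2) k).det
              * ((t⁻¹ : GL (Fin 2) k) : Matrix (Fin 2) (Fin 2) k).det)
            • ((t⁻¹ : GL (Fin 2) k) : Matrix (Fin 2) (Fin 2) k) := by rw [hdet, one_smul]
        _ = ((t⁻¹ : GL (Fin 2) k) : Matrix (Fin 2) (Fin 2) k).det
            • (((t : Matrix (Fin 2) (Fin 2) k).adjugate * (t : Matrix (Fin 2) (Fin 2) k))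
              * ((t⁻¹ : GL (Fin 2) k) : Matrix (Fin 2) (Fin 2) k)) := by
            rw [Matrix.adjugate_mul, Matrix.smul_mul, one_mul, smul_smul, mul_comm]
        _ = _ := by rw [mul_assoc, e1, mul_one]
    have htr : (t : Matrix (Fin 2) (Fin 2) k).adjugate.trace
        = (t : Matrix (Fin 2) (Fin 2) k).trace := by
      rw [Matrix.adjugate_fin_two, Matrix.trace_fin_two, Matrix.trace_fin_two]
      simp only [Matrix.of_apply, Matrix.cons_val', Matrix.cons_val_zero, Matrix.cons_val_one,
        Matrix.cons_val_fin_one]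
      exact add_comm _ _
    rw [hadj, Matrix.trace_smul, htr, smul_eq_mul, map_mul, hvdet, one_mul]
    exact h2

/-- The compact part of the centraliser of a regular element is a subgroup. -/
theorem isSub_inTwCentC196 (y : GL (Fin 2) k) (hreg : IsReg y) :
    IsSub196 (InTwCentC (RingEquiv.refl k) y) where
  one := inTwCentC_one196 y
  mul := fun a b ha hb => by
    have hn : twNorm (RingEquiv.refl k) 1 y = y := by
      change y * glAut (RingEquiv.refl k) 1 = y
      rw [map_one, mul_one]
    exact inTwCentC_mul846 (RingEquiv.refl k) 1 (fun _ => rfl) y (by rw [hn]; exact hreg) a b ha hb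
  inv := fun a ha => inTwCentC_inv196 y a ha

/-- `U(m)` is a subgroup. -/
theorem isSub_inU196 (m : ℕ) : IsSub196 (InU (k := k) m) where
  one := inU_one846 m
  mul := fun a b ha hb => inU_mul846 m a b ha hb
  inv := fun a ha => inU_inv846 m a ha

/-- **T6.18g2-D2** `GenLvlC783`. -/
theorem genLvlC196 : GenLvlC783 := by
  intro k _ _ q _ m Γ hΓ1 hΓmul hΓinv hUΓ hΓint hF
  classical
  have hΓ : IsSub196 Γ := ⟨hΓ1, hΓmul, hΓinv⟩
  have hU : IsSub196 (InU (k := k) m) := isSub_inU196 m
  have hfin : {c : Set (GL (Fin 2) k) | ∃ g, Γ g ∧ c = lc196 (InU m) g}.Finite := by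
    obtain ⟨F, hF⟩ := hF
    refine (F.finite_toSet.image (lc196 (InU m))).subset ?_
    rintro c ⟨g, hg, rfl⟩
    obtain ⟨x, hx, u, hu, rfl⟩ := hF g hg
    refine ⟨x, hx, ?_⟩
    apply lc196_eq_of hU
    have : x⁻¹ * (x * u) = u := by group
    rw [this]
    exact hu
  refine ⟨Set.ncard {c : Set (GL (Fin 2) k) | ∃ g, Γ g ∧ c = lc196 (InU m) g}, ?_, ?_⟩
  · have hne : {c : Set (GL (Fin 2) k) | ∃ g, Γ g ∧ c = lc196 (InU m) g}.Nonempty :=
      ⟨lc196 (InU m) 1, 1, hΓ1, rfl⟩
    exact ((Set.ncard_pos hfin).mpr hne).ne'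
  · intro ψ _ hψ h c' hreg hsum
    have hsum' : IsOrbSumGen (MonoidHom.id (GL (Fin 2) k)) (InU m)
        (InTwCentC (RingEquiv.refl k)) ψ h c' := by
      have := hsum
      unfold IsOrbSum IsTwOrbSum at this
      rw [glAut_refl196] at this
      exact this
    obtain ⟨c, hc, hcc⟩ := genLvl_abs196 (InU m) Γ (InTwCentC (RingEquiv.refl k)) hU hΓ hUΓ hfin
      ψ hψ h
      (by
        rintro y ⟨x, rfl⟩
        exact isSub_inTwCentC196 _ (isReg_conj196 h x hreg))
      (by
        intro y t ht
        have := ht.1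
        unfold InTwCent at this
        rw [glAut_refl_apply196] at this
        exact this)
      (by
        intro y x t
        have := inTwCentC_conj846 (RingEquiv.refl k) y x t
        rw [glAut_refl_apply196] at this
        exact this)
      (by
        intro y g hg hgy
        refine ⟨?_, (hΓint g hg).1, (hΓint g hg).2⟩
        change g⁻¹ * y * glAut (RingEquiv.refl k) g = y
        rw [glAut_refl_apply196]
        exact hgy)
      c' hsum'
    refine ⟨c, ?_, hcc⟩
    unfold IsOrbSumGam783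
    rw [glAut_refl196]
    exact hc

end Fermat.Agent.LT.T6.H196
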